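import Fermat.Agent.MF.Defs
import Fermat.Agent.MF.CuspRatio
import Fermat.Agent.MF.CuspSlash
import Mathlib.Analysis.Polynomial.Basic
import Mathlib.Analysis.Asymptotics.Lemmas

/-!
Orders of vanishing as `O`-estimates, and `O`-estimates between polynomials.
-/

noncomputable section

open UpperHalfPlane Filter Asymptotics Polynomial Function
open scoped Topology Manifold

namespace Fermat.Agent.MF.HolCrit

theorem isBigO_of_analyticOrderAt_le {F G : ℂ → ℂ} {a : ℂ} (hF : AnalyticAt ℂ F a)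
    (hG : AnalyticAt ℂ G a) (hG0 : analyticOrderAt G a ≠ ⊤)
    (h : analyticOrderAt G a ≤ analyticOrderAt F a) : F =O[𝓝 a] G := by
  obtain ⟨m, hm⟩ := ENat.ne_top_iff_exists.mp hG0
  obtain ⟨u, hu, hu0, hGu⟩ := hG.analyticOrderAt_eq_natCast.mp hm.symm
  rw [← hm] at h
  obtain ⟨v, hv, hFv⟩ := (natCast_le_analyticOrderAt hF).mp h
  refine IsBigO.congr' ?_ (Filter.EventuallyEq.symm hFv) (Filter.EventuallyEq.symm hGu)
  have h1 : v =O[𝓝 a] (fun _ => (1 : ℂ)) := hv.continuousAt.tendsto.isBigO_one ℂ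
  have h2 : (fun _ => (1 : ℂ)) =O[𝓝 a] u :=
    isBigO_of_div_tendsto_nhds ((hu.continuousAt.eventually_ne hu0).mono fun z hz h => absurd h hz)
      (1 / u a) (tendsto_const_nhds.div hu.continuousAt.tendsto hu0)
  exact (isBigO_refl (fun z => (z - a) ^ m) _).smul (h1.trans h2)

theorem analyticOrderAt_le_of_isBigO {F G : ℂ → ℂ} {a : ℂ} (hF : AnalyticAt ℂ F a)
    (hG : AnalyticAt ℂ G a) (h : F =O[𝓝[≠] a] G) : analyticOrderAt G a ≤ analyticOrderAt F a := by
  by_contra! hlt
  obtain ⟨n, hn⟩ := ENat.ne_top_iff_exists.mp hlt.ne_top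
  obtain ⟨v, hv, hv0, hFv⟩ := hF.analyticOrderAt_eq_natCast.mp hn.symm
  have hle : ((n + 1 : ℕ) : ℕ∞) ≤ analyticOrderAt G a := by
    rw [← hn] at hlt
    push_cast
    exact Order.add_one_le_of_lt hlt
  obtain ⟨u, hu, hGu⟩ := (natCast_le_analyticOrderAt hG).mp hle
  obtain ⟨C, hC⟩ := h.bound
  have hb : ∀ᶠ z in 𝓝[≠] a, ‖v z‖ ≤ C * (‖z - a‖ * ‖u z‖) := by
    filter_upwards [hC, hFv.filter_mono nhdsWithin_le_nhds, hGu.filter_mono nhdsWithin_le_nhds,
      self_mem_nhdsWithin] with z hz h1 h2 (hne : z ≠ a)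
    rw [h1, h2, norm_smul, norm_smul, pow_succ, norm_mul] at hz
    have hpos : 0 < ‖(z - a) ^ n‖ := norm_pos_iff.mpr (pow_ne_zero _ (sub_ne_zero.mpr hne))
    nlinarith
  have hlim : Tendsto (fun z => C * (‖z - a‖ * ‖u z‖)) (𝓝[≠] a) (𝓝 (C * (‖a - a‖ * ‖u a‖))) :=
    ((((continuousAt_id.sub continuousAt_const).norm).mul hu.continuousAt.norm).const_mul C).tendsto.mono_left
      nhdsWithin_le_nhds
  rw [sub_self, norm_zero, zero_mul, mul_zero] at hlim
  have hle0 : ‖v a‖ ≤ 0 :=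
    le_of_tendsto_of_tendsto (hv.continuousAt.norm.tendsto.mono_left nhdsWithin_le_nhds) hlim hb
  exact hv0 (norm_le_zero_iff.mp hle0)

theorem isBigO_of_ordAtH_le {f g : ℍ → ℂ} (hf : MDiff f) (hg : MDiff g) (hg0 : g ≠ 0) {τ : ℍ}
    (h : f ≠ 0 → ordAtH g τ ≤ ordAtH f τ) : f =O[𝓝 τ] g := by
  rcases eq_or_ne f 0 with rfl | hf0
  · exact isBigO_zero _ _
  have h' := Nat.cast_le.mp (h hf0)
  have hO := isBigO_of_analyticOrderAt_le (analyticAt_ofComplex_comp hf τ)
    (analyticAt_ofComplex_comp hg τ) (analyticOrderAt_ne_top hg hg0 τ)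
    (by rw [← Nat.cast_analyticOrderNatAt (analyticOrderAt_ne_top hf hf0 τ),
          ← Nat.cast_analyticOrderNatAt (analyticOrderAt_ne_top hg hg0 τ)]
        exact_mod_cast h')
  rw [← isOpenEmbedding_coe.map_nhds_eq, isBigO_map] at hO
  simpa [Function.comp_def] using hO

theorem ordAtH_le_of_isBigO {f g : ℍ → ℂ} (hf : MDiff f) (hg : MDiff g) (hf0 : f ≠ 0)
    (hg0 : g ≠ 0) {τ : ℍ} (h : f =O[𝓝[≠] τ] g) : ordAtH g τ ≤ ordAtH f τ := by
  have h' : (f ∘ ofComplex) =O[𝓝[≠] (τ : ℂ)] (g ∘ ofComplex) := by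
    refine h.comp_tendsto (tendsto_nhdsWithin_iff.mpr ⟨?_, ?_⟩)
    · have := (contMDiffAt_ofComplex (n := 0) τ.im_pos).continuousAt.tendsto
      rw [ofComplex_apply] at this
      exact this.mono_left nhdsWithin_le_nhds
    · filter_upwards [self_mem_nhdsWithin, mem_nhdsWithin_of_mem_nhds
        (isOpen_upperHalfPlaneSet.mem_nhds τ.im_pos)] with z (hz : z ≠ τ) hz'
      intro he
      rw [Set.mem_singleton_iff, ofComplex_apply_of_im_pos hz'] at he
      exact hz (by rw [← he])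
  have := analyticOrderAt_le_of_isBigO (analyticAt_ofComplex_comp hf τ)
    (analyticAt_ofComplex_comp hg τ) h'
  rw [← Nat.cast_analyticOrderNatAt (analyticOrderAt_ne_top hf hf0 τ),
    ← Nat.cast_analyticOrderNatAt (analyticOrderAt_ne_top hg hg0 τ)] at this
  simp only [ordAtH]
  exact_mod_cast this

variable {h : ℝ} {f g : ℍ → ℂ}

theorem isBigO_atImInfty_of_order_le (hh : 0 < h)
    (hfper : Periodic (f ∘ ofComplex) h) (hf : AnalyticAt ℂ (cuspFunction h f) 0)
    (hgper : Periodic (g ∘ ofComplex) h) (hg : AnalyticAt ℂ (cuspFunction h g) 0)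
    (hg0 : qExpansion h g ≠ 0) (hord : (qExpansion h g).order ≤ (qExpansion h f).order) :
    f =O[atImInfty] g := by
  rw [order_qExpansion_eq_analyticOrderAt hf, order_qExpansion_eq_analyticOrderAt hg] at hord
  have hg0' : analyticOrderAt (cuspFunction h g) 0 ≠ ⊤ := by
    rw [← order_qExpansion_eq_analyticOrderAt hg]
    exact PowerSeries.order_eq_top.not.mpr hg0
  exact ((isBigO_of_analyticOrderAt_le hf hg hg0' hord).comp_tendsto
    (qParam_tendsto_atImInfty hh)).congr (fun τ => eq_cuspFunction τ hh.ne' hfper)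
      (fun τ => eq_cuspFunction τ hh.ne' hgper)

theorem order_le_of_isBigO_atImInfty (hh : 0 < h)
    (hfper : Periodic (f ∘ ofComplex) h) (hf : AnalyticAt ℂ (cuspFunction h f) 0)
    (hgper : Periodic (g ∘ ofComplex) h) (hg : AnalyticAt ℂ (cuspFunction h g) 0)
    (hO : f =O[atImInfty] g) : (qExpansion h g).order ≤ (qExpansion h f).order := by
  by_contra! hlt
  have hf0 : qExpansion h f ≠ 0 := fun h0 => by simp [h0] at hlt
  have hne := eventually_ne_zero_atImInfty hh hfper hf hf0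
  have ho : g =o[atImInfty] f := (isLittleO_iff_tendsto' (hne.mono fun τ hτ h0 => absurd h0 hτ)).mpr
    (tendsto_div_atImInfty_zero hh hgper hg hfper hf hlt)
  obtain ⟨τ, hτ1, hτ2⟩ := (((hO.trans_isLittleO ho).def one_half_pos).and hne).exists
  have := norm_pos_iff.mpr hτ2
  linarith

/-- A polynomial dominated by another near `a` has at least its multiplicity at `a`. -/
theorem pow_dvd_of_isBigO {a : ℂ} {D : ℂ[X]} (b : ℕ) : ∀ {D₀ : ℂ[X]}, D = (X - C a) ^ b * D₀ →
    ∀ {P : ℂ[X]}, (fun z => P.eval z) =O[𝓝[≠] a] (fun z => D.eval z) →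
      (X - C a) ^ b ∣ P := by
  induction b generalizing D with
  | zero => simp
  | succ b ih =>
    intro D₀ hD P hP
    have h0 : P.eval a = 0 := by
      have hlim : Tendsto (fun z => D.eval z) (𝓝[≠] a) (𝓝 0) := by
        have : D.eval a = 0 := by rw [hD]; simp
        exact this ▸ D.continuous.continuousAt.tendsto.mono_left nhdsWithin_le_nhds
      exact tendsto_nhds_unique (P.continuous.continuousAt.tendsto.mono_left nhdsWithin_le_nhds)
        (hP.trans_tendsto hlim)
    obtain ⟨P₁, rfl⟩ := dvd_iff_isRoot.mpr h0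
    rw [pow_succ']
    refine mul_dvd_mul_left _ (ih (D := (X - C a) ^ b * D₀) rfl ?_)
    obtain ⟨C', hC⟩ := hP.bound
    refine IsBigO.of_bound C' ?_
    filter_upwards [hC, self_mem_nhdsWithin] with z hz (hne : z ≠ a)
    simp only [hD, pow_succ', eval_mul, eval_sub, eval_X, eval_C, mul_assoc, norm_mul] at hz
    have hpos : 0 < ‖z - a‖ := norm_pos_iff.mpr (sub_ne_zero.mpr hne)
    simp only [eval_mul, norm_mul]
    nlinarith

/-- A polynomial dominated by another along a filter escaping to infinity has no larger degree. -/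
theorem natDegree_le_of_isBigO {α : Type*} {l : Filter α} [l.NeBot] {j : α → ℂ}
    (hj : Tendsto j l (Bornology.cobounded ℂ)) {P D : ℂ[X]}
    (h : (fun x => P.eval (j x)) =O[l] fun x => D.eval (j x)) :
    P.natDegree ≤ D.natDegree := by
  by_contra! hlt
  have hP : P ≠ 0 := fun h0 => by simp [h0] at hlt
  have hdeg : D.degree < P.degree := degree_lt_degree hlt
  have ho := (h.trans_isLittleO ((isLittleO_cobounded_of_degree_lt hdeg).comp_tendsto hj)).def
    one_half_pos
  have hfin : ∀ᶠ z in Bornology.cobounded ℂ, P.eval z ≠ 0 := by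
    filter_upwards [Bornology.isBounded_def.mp (P.finite_setOfPred_isRoot hP).isBounded] with z hz
    exact hz
  obtain ⟨x, hx1, hx2⟩ := (ho.and (hj.eventually hfin)).exists
  rw [Function.comp_apply] at hx1
  have := norm_pos_iff.mpr hx2
  linarith

/-- A monic-type relation with dominated coefficients bounds the root. -/
theorem norm_le_of_relation {n : ℕ} {c : ℕ → ℂ} {D y : ℂ} {B : ℝ} (hD : D ≠ 0)
    (hc : ∀ i < n, ‖c i‖ ≤ B * ‖D‖)
    (h : D * y ^ n + ∑ i ∈ Finset.range n, c i * y ^ i = 0) :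
    ‖y‖ ≤ max 1 (n * B) := by
  rcases le_or_gt ‖y‖ 1 with h1 | h1
  · exact le_max_of_le_left h1
  refine le_max_of_le_right ?_
  cases n with
  | zero => simp at h; exact absurd h hD
  | succ n =>
    have h2 : ‖D * y ^ (n + 1)‖ ≤ ∑ i ∈ Finset.range (n + 1), ‖c i * y ^ i‖ := by
      rw [eq_neg_of_add_eq_zero_left h, norm_neg]
      exact norm_sum_le _ _
    have h3 : ∑ i ∈ Finset.range (n + 1), ‖c i * y ^ i‖ ≤
        ∑ _i ∈ Finset.range (n + 1), B * ‖D‖ * ‖y‖ ^ n := by
      refine Finset.sum_le_sum fun i hi => ?_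
      rw [Finset.mem_range] at hi
      rw [norm_mul, norm_pow]
      exact mul_le_mul (hc i hi) (pow_le_pow_right₀ h1.le (by omega)) (by positivity)
        ((norm_nonneg _).trans (hc i hi))
    rw [Finset.sum_const, Finset.card_range, nsmul_eq_mul] at h3
    rw [norm_mul, norm_pow, pow_succ] at h2
    have hDpos : 0 < ‖D‖ := norm_pos_iff.mpr hD
    have hpos : 0 < ‖y‖ ^ n := by positivity
    refine le_of_mul_le_mul_left ?_ (mul_pos hDpos hpos)
    nlinarith

end Fermat.Agent.MF.HolCrit
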