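import Fermat.Agent.MF.KleinJ
import Fermat.Agent.MF.LevelOneRatio

/-!
Polynomials in `j`, cleared by powers of the discriminant, as functions with a q-expansion.
-/

noncomputable section

open UpperHalfPlane ModularForm EisensteinSeries Polynomial
open scoped MatrixGroups

namespace Fermat.Agent.MF.HolCrit

/-- `E₄` as a function with a q-expansion. -/
def qE₄ : qFunctions := ⟨E₄, coe_levelOne_mem_qFunctions E₄⟩

/-- `Δ` as a function with a q-expansion. -/
def qDelta : qFunctions := ⟨ModularForm.discriminant, mem_qFunctions_discriminant⟩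

/-- `P(j) Δ^m`, for `deg P ≤ m`. -/
def polyDelta (P : ℂ[X]) (m : ℕ) : qFunctions :=
  ∑ i ∈ Finset.range (m + 1), algebraMap ℂ qFunctions (P.coeff i) * ((qE₄ ^ 3) ^ i * qDelta ^ (m - i))

theorem polyDelta_apply {P : ℂ[X]} {m : ℕ} (hP : P.natDegree ≤ m) (τ : ℍ) :
    (polyDelta P m : ℍ → ℂ) τ = P.eval (kleinJ τ) * ModularForm.discriminant τ ^ m := by
  rw [polyDelta, AddSubmonoidClass.coe_finsetSum, Finset.sum_apply,
    eval_eq_sum_range' (Nat.lt_succ_of_le hP), Finset.sum_mul]
  refine Finset.sum_congr rfl fun i hi => ?_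
  have him : i ≤ m := Nat.lt_succ_iff.mp (Finset.mem_range.mp hi)
  show P.coeff i * ((E₄ τ ^ 3) ^ i * ModularForm.discriminant τ ^ (m - i)) = _
  have hne := discriminant_ne_zero τ
  rw [← Nat.add_sub_cancel' him, pow_add, Nat.add_sub_cancel' him, kleinJ, div_pow]
  field_simp

theorem qLHom_polyDelta {P : ℂ[X]} {m : ℕ} (hP : P.natDegree ≤ m) :
    qLHom (polyDelta P m) = aeval jC P * qL ModularForm.discriminant ^ m := by
  rw [polyDelta, aeval_eq_sum_range' (Nat.lt_succ_of_le hP), Finset.sum_mul, map_sum]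
  refine Finset.sum_congr rfl fun i hi => ?_
  have him : i ≤ m := Nat.lt_succ_iff.mp (Finset.mem_range.mp hi)
  simp only [map_mul, map_pow, AlgHom.commutes, qLHom_apply, qE₄, qDelta]
  rw [← jC_mul_qL_discriminant, mul_pow, Algebra.smul_def, mul_assoc (jC ^ i), ← pow_add,
    Nat.add_sub_cancel' him, mul_assoc]

/-- `j` is transcendental over `ℂ`. -/
theorem aeval_jC_injective : Function.Injective (aeval jC : ℂ[X] →ₐ[ℂ] LaurentSeries ℂ) := by
  rw [injective_iff_map_eq_zero]
  intro P hP
  have h : qLHom (polyDelta P P.natDegree) = 0 := by rw [qLHom_polyDelta le_rfl, hP, zero_mul]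
  rw [← map_zero qLHom] at h
  refine Polynomial.funext fun z => ?_
  obtain ⟨τ, rfl⟩ := kleinJ_surjective z
  have h' := congrArg (fun u : qFunctions => (u : ℍ → ℂ) τ) (qLHom_injective h)
  simp only [polyDelta_apply le_rfl, ZeroMemClass.coe_zero, Pi.zero_apply, mul_eq_zero,
    pow_ne_zero _ (discriminant_ne_zero τ), or_false] at h'
  simpa using h'

theorem aeval_jC_ne_zero {P : ℂ[X]} (hP : P ≠ 0) : aeval jC P ≠ 0 := fun h =>
  hP (aeval_jC_injective (h.trans (map_zero _).symm))

end Fermat.Agent.MF.HolCrit
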