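import Fermat.Agent.MF.Defs
import Mathlib.NumberTheory.ModularForms.NormTrace
import Mathlib.NumberTheory.ModularForms.BoundedAtCusp
import Mathlib.Algebra.Polynomial.BigOperators
import Mathlib.Analysis.Asymptotics.Lemmas

/-!
Coefficients of the homogeneous characteristic polynomial `∏ (g|γ X - f|γ)` over the cosets of
`Γ₀(N)` in `SL(2,ℤ)`, as level one forms.
-/

noncomputable section

open UpperHalfPlane ModularForm CongruenceSubgroup Filter Asymptotics Polynomial
open scoped MatrixGroups ModularForm Topology Manifold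

namespace Fermat.Agent.MF.HolCrit

section Linear

variable {ι R : Type*} [CommRing R] (a b : ι → R)

/-- `∏ (a X - b)`. -/
def linProd (s : Finset ι) : R[X] := ∏ i ∈ s, (C (a i) * X - C (b i))

theorem linProd_insert [DecidableEq ι] {s : Finset ι} {i : ι} (h : i ∉ s) :
    linProd a b (insert i s) = (C (a i) * X - C (b i)) * linProd a b s :=
  Finset.prod_insert h

theorem coeff_linProd_insert_zero [DecidableEq ι] {s : Finset ι} {i : ι} (h : i ∉ s) :
    (linProd a b (insert i s)).coeff 0 = -b i * (linProd a b s).coeff 0 := by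
  simp [linProd_insert a b h, mul_coeff_zero]

theorem coeff_linProd_insert_succ [DecidableEq ι] {s : Finset ι} {i : ι} (h : i ∉ s) (n : ℕ) :
    (linProd a b (insert i s)).coeff (n + 1) =
      a i * (linProd a b s).coeff n - b i * (linProd a b s).coeff (n + 1) := by
  rw [linProd_insert a b h, sub_mul, coeff_sub, mul_assoc, coeff_C_mul, coeff_C_mul, coeff_X_mul]

theorem natDegree_linProd_le (s : Finset ι) : (linProd a b s).natDegree ≤ s.card := by
  refine (natDegree_prod_le _ _).trans ((Finset.sum_le_card_nsmul _ _ 1 fun i _ => ?_).trans ?_)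
  · compute_degree
  · simp

theorem coeff_linProd_card (s : Finset ι) :
    (linProd a b s).coeff s.card = ∏ i ∈ s, a i := by
  classical
  induction s using Finset.induction with
  | empty => simp [linProd]
  | insert i s h ih =>
    rw [Finset.card_insert_of_notMem h, coeff_linProd_insert_succ a b h, ih,
      coeff_eq_zero_of_natDegree_lt (Nat.lt_succ_of_le (natDegree_linProd_le a b s)),
      Finset.prod_insert h, mul_zero, sub_zero]

end Linear

variable {N : ℕ} [NeZero N] {k : ℤ}

/-- `Γ₀(N)` inside `GL(2, ℝ)`. -/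
abbrev Γ₀GL (N : ℕ) : Subgroup (GL (Fin 2) ℝ) :=
  ((Gamma0 N : Subgroup SL(2, ℤ)) : Subgroup (GL (Fin 2) ℝ))

/-- The cosets of `Γ₀(N)` in `SL(2,ℤ)`. -/
abbrev Cosets (N : ℕ) : Type := 𝒮ℒ ⧸ ((Γ₀GL N).subgroupOf 𝒮ℒ)

instance : (Γ₀GL N).IsFiniteRelIndex 𝒮ℒ := inferInstance

instance instFintypeCosets : Fintype (Cosets N) := Fintype.ofFinite _

/-- The translate of a form by a coset. -/
def slashQ (f : MForm N k) (q : Cosets N) : ℍ → ℂ := SlashInvariantForm.quotientFunc f q

omit [NeZero N] in
theorem exists_slashQ_eq (f : MForm N k) (q : Cosets N) :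
    ∃ γ : SL(2, ℤ), slashQ f q = (f : ℍ → ℂ) ∣[k] γ := by
  induction q using Quotient.inductionOn with
  | h r =>
    obtain ⟨r, hr⟩ := r
    obtain ⟨γ, rfl⟩ := MonoidHom.mem_range.mp hr
    refine ⟨γ⁻¹, ?_⟩
    rw [slashQ, SlashInvariantForm.quotientFunc_mk]
    exact congrArg (fun x => (f : ℍ → ℂ) ∣[k] x)
      (map_inv (Matrix.SpecialLinearGroup.mapGL ℝ) γ).symm

omit [NeZero N] in
/-- All translates at once: every coset is represented by some `γ`, and conversely. -/
theorem exists_slashQ_eq_pair (f g : MForm N k) (q : Cosets N) :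
    ∃ γ : SL(2, ℤ), slashQ f q = (f : ℍ → ℂ) ∣[k] γ ∧ slashQ g q = (g : ℍ → ℂ) ∣[k] γ := by
  induction q using Quotient.inductionOn with
  | h r =>
    obtain ⟨r, hr⟩ := r
    obtain ⟨γ, rfl⟩ := MonoidHom.mem_range.mp hr
    refine ⟨γ⁻¹, ?_, ?_⟩ <;>
    · rw [slashQ, SlashInvariantForm.quotientFunc_mk]
      exact congrArg (fun x => (_ : ℍ → ℂ) ∣[k] x)
        (map_inv (Matrix.SpecialLinearGroup.mapGL ℝ) γ).symm

omit [NeZero N] in
theorem slashQ_one (f : MForm N k) : slashQ f ⟦(1 : 𝒮ℒ)⟧ = f := by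
  rw [slashQ, SlashInvariantForm.quotientFunc_mk]
  simp

/-- The coefficient of `X ^ i` in `∏ (g|γ X - f|γ)`. -/
def symFun (f g : MForm N k) (i : ℕ) : ℍ → ℂ := fun τ =>
  (linProd (fun q : Cosets N => slashQ g q τ) (fun q => slashQ f q τ) Finset.univ).coeff i

omit [NeZero N] in
theorem mdifferentiable_linProd (f g : MForm N k) (s : Finset (Cosets N)) (i : ℕ) :
    MDiff fun τ => (linProd (fun q => slashQ g q τ) (fun q => slashQ f q τ) s).coeff i := by
  classical
  have hd : ∀ (u : MForm N k) (q : Cosets N), MDiff (slashQ u q) := by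
    intro u q
    obtain ⟨γ, hγ⟩ := exists_slashQ_eq u q
    rw [hγ]
    exact (ModularForm.translate u (γ : GL (Fin 2) ℝ)).holo'
  induction s using Finset.induction generalizing i with
  | empty =>
    simp only [linProd, Finset.prod_empty]
    exact mdifferentiable_const
  | insert q s h ih =>
    cases i with
    | zero =>
      simp only [coeff_linProd_insert_zero _ _ h]
      exact (hd f q).neg.mul (ih 0)
    | succ i =>
      simp only [coeff_linProd_insert_succ _ _ h]
      exact ((hd g q).mul (ih i)).sub ((hd f q).mul (ih (i + 1)))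

omit [NeZero N] in
theorem isBigO_linProd (f g : MForm N k) (l : Filter ℍ)
    (h : ∀ q : Cosets N, slashQ f q =O[l] slashQ g q) (s : Finset (Cosets N)) (i : ℕ) :
    (fun τ => (linProd (fun q => slashQ g q τ) (fun q => slashQ f q τ) s).coeff i) =O[l]
      fun τ => ∏ q ∈ s, slashQ g q τ := by
  classical
  induction s using Finset.induction generalizing i with
  | empty =>
    simp only [linProd, Finset.prod_empty, coeff_one]
    exact isBigO_const_const _ one_ne_zero _
  | insert q s hq ih =>
    simp only [Finset.prod_insert hq]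
    cases i with
    | zero =>
      simp only [coeff_linProd_insert_zero _ _ hq]
      exact (h q).neg_left.mul (ih 0)
    | succ i =>
      simp only [coeff_linProd_insert_succ _ _ hq]
      exact ((isBigO_refl _ _).mul (ih i)).sub ((h q).mul (ih (i + 1)))

theorem symFun_card (f g : MForm N k) :
    symFun f g (Fintype.card (Cosets N)) = fun τ => ∏ q : Cosets N, slashQ g q τ :=
  funext fun _ => coeff_linProd_card _ _ _

theorem isBigO_symFun (f g : MForm N k) (l : Filter ℍ)
    (h : ∀ γ : SL(2, ℤ), ((f : ℍ → ℂ) ∣[k] γ) =O[l] ((g : ℍ → ℂ) ∣[k] γ)) (i : ℕ) :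
    symFun f g i =O[l] symFun f g (Fintype.card (Cosets N)) := by
  rw [symFun_card]
  refine isBigO_linProd f g l (fun q => ?_) _ i
  obtain ⟨γ, h1, h2⟩ := exists_slashQ_eq_pair f g q
  rw [h1, h2]
  exact h γ

theorem symFun_smul (f g : MForm N k) (i : ℕ) (γ : SL(2, ℤ)) (τ : ℍ) :
    symFun f g i (γ • τ) =
      denom γ τ ^ (k * Fintype.card (Cosets N)) * symFun f g i τ := by
  have key : ∀ (u : MForm N k) (q : Cosets N), slashQ u q (γ • τ) =
      denom γ τ ^ k *
        slashQ u ((⟨_, MonoidHom.mem_range.mpr ⟨γ, rfl⟩⟩ : 𝒮ℒ)⁻¹ • q) τ := by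
    intro u q
    have h := congrFun (SlashInvariantForm.quotientFunc_smul u
      (MonoidHom.mem_range.mpr ⟨γ, rfl⟩ : (γ : GL (Fin 2) ℝ) ∈ 𝒮ℒ) q) τ
    rw [← ModularForm.SL_slash, ModularForm.SL_slash_apply] at h
    refine Eq.trans ?_ (congrArg (denom γ τ ^ k * ·) h)
    simp only [slashQ, zpow_neg]
    field_simp [zpow_ne_zero k (denom_ne_zero γ τ)]
  simp only [symFun, key]
  have hp : linProd
      (fun q : Cosets N => denom γ τ ^ k *
        slashQ g ((⟨_, MonoidHom.mem_range.mpr ⟨γ, rfl⟩⟩ : 𝒮ℒ)⁻¹ • q) τ)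
      (fun q => denom γ τ ^ k *
        slashQ f ((⟨_, MonoidHom.mem_range.mpr ⟨γ, rfl⟩⟩ : 𝒮ℒ)⁻¹ • q) τ) Finset.univ =
      C ((denom γ τ ^ k) ^ Fintype.card (Cosets N)) *
        linProd (fun q : Cosets N => slashQ g q τ) (fun q => slashQ f q τ) Finset.univ := by
    simp only [linProd, map_mul, mul_assoc, ← mul_sub, Finset.prod_mul_distrib, Finset.prod_const,
      Finset.card_univ, map_pow]
    congr 1
    exact Equiv.prod_comp (MulAction.toPerm
      ((⟨_, MonoidHom.mem_range.mpr ⟨γ, rfl⟩⟩ : 𝒮ℒ)⁻¹))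
      (fun q : Cosets N => C (slashQ g q τ) * X - C (slashQ f q τ))
  rw [hp, coeff_C_mul, ← zpow_natCast (denom γ τ ^ k), ← zpow_mul]

theorem slash_symFun (f g : MForm N k) (i : ℕ) (γ : SL(2, ℤ)) :
    symFun f g i ∣[k * Fintype.card (Cosets N)] γ = symFun f g i := by
  funext τ
  rw [ModularForm.SL_slash_apply, symFun_smul, zpow_neg]
  field_simp [zpow_ne_zero (k * Fintype.card (Cosets N)) (denom_ne_zero γ τ)]

theorem isBoundedAtImInfty_linProd (f g : MForm N k) (s : Finset (Cosets N)) (i : ℕ) :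
    IsBoundedAtImInfty fun τ =>
      (linProd (fun q => slashQ g q τ) (fun q => slashQ f q τ) s).coeff i := by
  classical
  have hd : ∀ (u : MForm N k) (q : Cosets N), IsBoundedAtImInfty (slashQ u q) := by
    intro u q
    obtain ⟨γ, hγ⟩ := exists_slashQ_eq u q
    rw [hγ]
    exact ModularFormClass.bdd_at_infty_slash u γ
  induction s using Finset.induction generalizing i with
  | empty =>
    simp only [linProd, Finset.prod_empty]
    exact Filter.const_boundedAtFilter _ _
  | insert q s h ih =>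
    cases i with
    | zero =>
      simp only [coeff_linProd_insert_zero _ _ h]
      exact (hd f q).neg.mul (ih 0)
    | succ i =>
      simp only [coeff_linProd_insert_succ _ _ h]
      exact Asymptotics.IsBigO.sub (Filter.BoundedAtFilter.mul (hd g q) (ih i))
        (Filter.BoundedAtFilter.mul (hd f q) (ih (i + 1)))

/-- The level one form `symFun f g i`. -/
def symForm (f g : MForm N k) (i : ℕ) : ModularForm 𝒮ℒ (k * Fintype.card (Cosets N)) where
  toFun := symFun f g i
  slash_action_eq' := fun _ ⟨γ, hγ⟩ => hγ ▸ slash_symFun f g i γ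
  holo' := mdifferentiable_linProd f g _ i
  bdd_at_cusps' {c} hc := by
    rw [Subgroup.IsArithmetic.isCusp_iff_isCusp_SL2Z] at hc
    rw [OnePoint.isBoundedAt_iff_forall_SL2Z hc]
    intro γ _
    rw [slash_symFun f g i γ]
    exact isBoundedAtImInfty_linProd f g _ i

@[simp] theorem coe_symForm (f g : MForm N k) (i : ℕ) :
    (symForm f g i : ℍ → ℂ) = symFun f g i := rfl

theorem symFun_card_ne_zero (f : MForm N k) {g : MForm N k} (hg : g ≠ 0) :
    symFun f g (Fintype.card (Cosets N)) ≠ 0 := by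
  rw [symFun_card]
  have := ModularForm.norm_ne_zero (𝒢 := Γ₀GL N) 𝒮ℒ (mform_coe_ne_zero hg)
  contrapose! this
  ext τ
  simpa [slashQ] using congrFun this τ

/-- The homogeneous relation satisfied by the pair `(f, g)`, times `g`. -/
theorem symFun_relation (f g : MForm N k) (τ : ℍ) :
    g τ * ∑ i ∈ Finset.range (Fintype.card (Cosets N) + 1),
      symFun f g i τ * f τ ^ i * g τ ^ (Fintype.card (Cosets N) - i) = 0 := by
  rcases eq_or_ne (g τ) 0 with h0 | h0
  · rw [h0, zero_mul]
  set p := linProd (fun q : Cosets N => slashQ g q τ) (fun q => slashQ f q τ) Finset.univ with hp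
  have hdeg : p.natDegree < Fintype.card (Cosets N) + 1 :=
    Nat.lt_succ_of_le (natDegree_linProd_le _ _ _)
  have hev : p.eval (f τ / g τ) = 0 := by
    rw [hp, linProd, eval_prod]
    refine Finset.prod_eq_zero (i := (⟦(1 : 𝒮ℒ)⟧ : Cosets N)) (Finset.mem_univ _) ?_
    simp [slashQ_one, mul_div_cancel₀ _ h0]
  rw [eval_eq_sum_range' hdeg] at hev
  rw [mul_eq_zero]
  right
  calc _ = g τ ^ Fintype.card (Cosets N) * ∑ i ∈ Finset.range (Fintype.card (Cosets N) + 1),
        p.coeff i * (f τ / g τ) ^ i := by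
        rw [Finset.mul_sum]
        refine Finset.sum_congr rfl fun i hi => ?_
        rw [Finset.mem_range] at hi
        have : g τ ^ Fintype.card (Cosets N) =
            g τ ^ i * g τ ^ (Fintype.card (Cosets N) - i) := by
          rw [← pow_add]; congr 1; omega
        rw [this, div_pow]
        show p.coeff i * f τ ^ i * _ = _
        field_simp
    _ = 0 := by rw [hev, mul_zero]

end Fermat.Agent.MF.HolCrit
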